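import Fermat.Agent.ErdosKac.Model
import Mathlib.MeasureTheory.Measure.LevyConvergence
import Mathlib.MeasureTheory.Measure.Portmanteau
import Mathlib.Probability.Distributions.Gaussian.Real
import Mathlib.Analysis.SpecialFunctions.Pow.Asymptotics
import Mathlib.Analysis.SpecialFunctions.Trigonometric.Bounds
import Mathlib.NumberTheory.ArithmeticFunction.Misc

/-!
# The theorem of Erdős and Kac

Truncation to the primes `≤ N ^ (1 / log log N)`, comparison with the independent model, and
Lévy's convergence theorem.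
-/

set_option autoImplicit false

noncomputable section

namespace FA.ErdosKac

open Finset Filter MeasureTheory
open scoped Topology

/-- `log log N`. -/
def loglog (N : ℕ) : ℝ := Real.log (Real.log N)

/-- The number of prime divisors, normalised. -/
def normOmega (N n : ℕ) : ℝ := ((n.primeFactors.card : ℝ) - loglog N) / Real.sqrt (loglog N)

/-- The characteristic function of the normalised number of prime divisors. -/
def charAvg (N : ℕ) (t : ℝ) : ℂ :=
  (∑ n ∈ Icc 1 N, Complex.exp ((t * normOmega N n : ℝ) * Complex.I)) / (N : ℂ)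

/-- The truncation. -/
def cut (N : ℕ) : ℕ := ⌊Real.exp (Real.log N / loglog N)⌋₊

theorem tendsto_loglog : Tendsto loglog atTop atTop :=
  Real.tendsto_log_atTop.comp (Real.tendsto_log_atTop.comp tendsto_natCast_atTop_atTop)

theorem eventually_cut :
    ∀ᶠ N : ℕ in atTop, 2 ≤ cut N ∧ cut N ≤ N ∧
      |Real.log (Real.log (cut N)) - (loglog N - Real.log (loglog N))| ≤ 1 := by
  have hratio : Tendsto (fun N : ℕ => Real.log N / loglog N) atTop atTop := by
    have h := (Real.isLittleO_log_id_atTop.comp_tendsto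
      (Real.tendsto_log_atTop.comp tendsto_natCast_atTop_atTop)).tendsto_div_nhds_zero
    have h' : ∀ᶠ N : ℕ in atTop, 0 < loglog N / Real.log N := by
      filter_upwards [tendsto_loglog.eventually_ge_atTop 1, eventually_ge_atTop 2] with N h1 h2
      exact div_pos (by linarith) (Real.log_pos (Nat.one_lt_cast.2 (by omega)))
    refine ((tendsto_nhdsWithin_iff.2 ⟨h, h'⟩).inv_tendsto_nhdsGT_zero).congr fun N => ?_
    simp [loglog]
  filter_upwards [hratio.eventually_ge_atTop 2, tendsto_loglog.eventually_ge_atTop 1,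
    eventually_ge_atTop 2] with N hr hl hN
  obtain ⟨r, hrdef⟩ : ∃ r, r = Real.log N / loglog N := ⟨_, rfl⟩
  rw [← hrdef] at hr
  have hlogN : 0 < Real.log N := Real.log_pos (Nat.one_lt_cast.2 (by omega))
  have hexp : (2 : ℝ) ≤ Real.exp r := by linarith [Real.add_one_le_exp r]
  have hc : cut N = ⌊Real.exp r⌋₊ := hrdef ▸ rfl
  have hc2 : 2 ≤ cut N := hc ▸ Nat.le_floor (by push_cast; exact hexp)
  refine ⟨hc2, ?_, ?_⟩
  · rw [hc, ← Nat.floor_natCast (R := ℝ) N]
    refine Nat.floor_mono ((Real.exp_le_exp.2 ?_).trans_eq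
      (Real.exp_log (Nat.cast_pos.2 (show 0 < N by omega))))
    exact hrdef ▸ div_le_self hlogN.le hl
  · have hc0 : (0 : ℝ) < cut N := Nat.cast_pos.2 (by omega)
    have hup : Real.log (cut N) ≤ r :=
      (Real.log_le_log hc0 (hc ▸ Nat.floor_le (Real.exp_pos r).le)).trans_eq (Real.log_exp r)
    have hlo : r - Real.log 2 ≤ Real.log (cut N) := by
      have h := Nat.lt_floor_add_one (Real.exp r)
      rw [← hc] at h
      have h1 : (2 : ℝ) ≤ cut N := Nat.ofNat_le_cast.2 hc2
      have h2 := Real.log_le_log (Real.exp_pos r) (show Real.exp r ≤ 2 * cut N by linarith)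
      rw [Real.log_exp, Real.log_mul two_ne_zero hc0.ne'] at h2
      linarith
    have hlc : 0 < Real.log (cut N) := Real.log_pos (Nat.one_lt_cast.2 (by omega))
    have e : loglog N - Real.log (loglog N) = Real.log r := by
      rw [hrdef, Real.log_div hlogN.ne' (by linarith)]
      rfl
    have h1 := Real.log_le_log hlc hup
    have h3 := Real.log_le_log (show 0 < r / 2 by linarith)
      (show r / 2 ≤ Real.log (cut N) by linarith [Real.log_two_lt_d9])
    rw [Real.log_div (by linarith) two_ne_zero] at h3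
    rw [e, abs_le]
    constructor <;> linarith [Real.log_two_lt_d9]

theorem tendsto_recipSum_cut :
    Tendsto (fun N : ℕ => (recipSum (cut N) - loglog N) / Real.sqrt (loglog N)) atTop (𝓝 0) := by
  obtain ⟨C, hC⟩ := exists_abs_recipSum_sub_le
  have hlog : Tendsto (fun N : ℕ => (Real.log (loglog N) + (C + 1)) / Real.sqrt (loglog N))
      atTop (𝓝 0) := by
    have h1 : Tendsto (fun x : ℝ => Real.log x / Real.sqrt x) atTop (𝓝 0) := by
      refine
        ((isLittleO_log_rpow_atTop (show (0 : ℝ) < 1 / 2 by norm_num)).tendsto_div_nhds_zero).congr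
        fun x => ?_
      rw [Real.sqrt_eq_rpow]
    have h2 : Tendsto (fun x : ℝ => (C + 1) / Real.sqrt x) atTop (𝓝 0) :=
      tendsto_const_nhds.div_atTop Real.tendsto_sqrt_atTop
    simpa [Function.comp_def, add_div] using (h1.add h2).comp tendsto_loglog
  refine squeeze_zero_norm' ?_ hlog
  filter_upwards [eventually_cut, tendsto_loglog.eventually_ge_atTop 1] with N hN hl
  obtain ⟨h2, -, hlog⟩ := hN
  rw [Real.norm_eq_abs, abs_div, abs_of_nonneg (Real.sqrt_nonneg _)]
  refine div_le_div_of_nonneg_right ?_ (Real.sqrt_nonneg _)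
  have h := abs_le.1 (hC _ h2)
  have h' := abs_le.1 hlog
  have := Real.log_nonneg hl
  rw [abs_le]
  constructor <;> linarith

theorem norm_charAvg_sub_le (N : ℕ) (hN : 0 < N) (t : ℝ) (hy : cut N ≤ N)
    (hl : 0 < loglog N) :
    ‖charAvg N t - (∑ n ∈ Icc 1 N, Complex.exp
      ((t * ((((primesUpTo (cut N)).filter (· ∣ n)).card : ℝ) - recipSum (cut N)) /
        Real.sqrt (loglog N) : ℝ) * Complex.I)) / (N : ℂ)‖ ≤
      |t| * ((recipSum N - recipSum (cut N)) + |recipSum (cut N) - loglog N|) /
        Real.sqrt (loglog N) := by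
  have hNr : (0 : ℝ) < N := Nat.cast_pos.2 hN
  have hs : 0 < Real.sqrt (loglog N) := Real.sqrt_pos.2 hl
  rw [charAvg, ← sub_div, ← sum_sub_distrib, norm_div, Complex.norm_natCast, div_le_iff₀ hNr]
  refine (norm_sum_le _ _).trans ((sum_le_sum (g := fun n : ℕ => |t| / Real.sqrt (loglog N) *
    ((((primesUpTo N) \ (primesUpTo (cut N))).filter (· ∣ n)).card +
      |recipSum (cut N) - loglog N|)) fun n hn => ?_).trans ?_)
  · rw [mem_Icc] at hn
    have hfac : n.primeFactors = (primesUpTo N).filter (· ∣ n) := by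
      ext q
      rw [Nat.mem_primeFactors, mem_filter, mem_primesUpTo]
      exact ⟨fun h => ⟨⟨h.1, (Nat.le_of_dvd hn.1 h.2.1).trans hn.2⟩, h.2.1⟩,
        fun h => ⟨h.1.1, h.2, by omega⟩⟩
    have hsub : primesUpTo (cut N) ⊆ primesUpTo N := fun q hq =>
      mem_primesUpTo.2 ⟨(mem_primesUpTo.1 hq).1, (mem_primesUpTo.1 hq).2.trans hy⟩
    have hsplit : (n.primeFactors.card : ℝ) = (((primesUpTo (cut N)).filter (· ∣ n)).card : ℝ) +
        ((((primesUpTo N) \ (primesUpTo (cut N))).filter (· ∣ n)).card : ℝ) := by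
      rw [hfac, ← Nat.cast_add, ← card_union_of_disjoint, ← filter_union,
        union_sdiff_of_subset hsub]
      exact disjoint_filter_filter disjoint_sdiff
    obtain ⟨a, ha⟩ : ∃ a, a = t * normOmega N n := ⟨_, rfl⟩
    obtain ⟨b, hb⟩ : ∃ b, b = t * ((((primesUpTo (cut N)).filter (· ∣ n)).card : ℝ) -
      recipSum (cut N)) / Real.sqrt (loglog N) := ⟨_, rfl⟩
    rw [← ha, ← hb]
    have key : ‖Complex.exp ((a : ℂ) * Complex.I) - Complex.exp ((b : ℂ) * Complex.I)‖ ≤
        |a - b| := by
      rw [show Complex.exp ((a : ℂ) * Complex.I) - Complex.exp ((b : ℂ) * Complex.I) =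
        Complex.exp ((b : ℂ) * Complex.I) *
          (Complex.exp (Complex.I * ((a - b : ℝ) : ℂ)) - 1) by
            rw [mul_sub, ← Complex.exp_add, mul_one]; push_cast; ring_nf,
        norm_mul, Complex.norm_exp_ofReal_mul_I, one_mul, ← Real.norm_eq_abs]
      exact Real.norm_exp_I_mul_ofReal_sub_one_le
    refine key.trans ?_
    rw [ha, hb, normOmega, hsplit, mul_div_assoc' t, ← sub_div, ← mul_sub, abs_div, abs_mul,
      abs_of_pos hs, div_mul_eq_mul_div]
    refine div_le_div_of_nonneg_right (mul_le_mul_of_nonneg_left ?_ (abs_nonneg t)) hs.le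
    refine abs_le.2 ⟨?_, ?_⟩ <;>
      linarith [le_abs_self (recipSum (cut N) - loglog N), neg_abs_le (recipSum (cut N) - loglog N),
        Nat.cast_nonneg (α := ℝ) (((primesUpTo N) \ (primesUpTo (cut N))).filter (· ∣ n)).card]
  · rw [← mul_sum, sum_add_distrib, sum_const, Nat.card_Icc, Nat.add_sub_cancel, nsmul_eq_mul]
    have hsub : primesUpTo (cut N) ⊆ primesUpTo N := fun q hq =>
      mem_primesUpTo.2 ⟨(mem_primesUpTo.1 hq).1, (mem_primesUpTo.1 hq).2.trans hy⟩
    have hswap : ∑ n ∈ Icc 1 N,
        ((((primesUpTo N) \ (primesUpTo (cut N))).filter (· ∣ n)).card : ℝ) ≤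
        (N : ℝ) * (recipSum N - recipSum (cut N)) := by
      simp only [card_filter, Nat.cast_sum, Nat.cast_ite, Nat.cast_one, Nat.cast_zero]
      rw [sum_comm, recipSum, recipSum, ← sum_sdiff hsub, add_sub_cancel_right, mul_sum]
      refine sum_le_sum fun q _ => ?_
      rw [sum_boole, show Icc 1 N = Ioc 0 N from rfl, Nat.Ioc_filter_dvd_card_eq_div,
        ← div_eq_mul_inv]
      exact Nat.cast_div_le
    refine (mul_le_mul_of_nonneg_left (add_le_add hswap le_rfl) (by positivity)).trans (le_of_eq ?_)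
    ring

/-- **The characteristic functions converge.** -/
theorem tendsto_charAvg (t : ℝ) :
    Tendsto (fun N => charAvg N t) atTop (𝓝 (Complex.exp (-(t : ℂ) ^ 2 / 2))) := by
  obtain ⟨C, hC⟩ := exists_abs_recipSum_sub_le
  obtain ⟨L, hLdef⟩ : ∃ L : ℕ → ℝ, L = fun N => recipSum (cut N) := ⟨_, rfl⟩
  obtain ⟨s, hsdef⟩ : ∃ s : ℕ → ℝ, s = fun N => t / Real.sqrt (loglog N) := ⟨_, rfl⟩
  obtain ⟨w, hwdef⟩ : ∃ w : ℕ → ℂ, w = fun N => Complex.exp ((s N : ℂ) * Complex.I) - 1 := ⟨_, rfl⟩
  have hL : Tendsto (fun N => (L N - loglog N) / Real.sqrt (loglog N)) atTop (𝓝 0) :=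
    hLdef ▸ tendsto_recipSum_cut
  have hs : Tendsto s atTop (𝓝 0) :=
    hsdef ▸ tendsto_const_nhds.div_atTop (Real.tendsto_sqrt_atTop.comp tendsto_loglog)
  have hratio : Tendsto (fun N => L N / loglog N) atTop (𝓝 1) := by
    have h1 := (hL.mul (tendsto_inv_atTop_zero.comp
      (Real.tendsto_sqrt_atTop.comp tendsto_loglog))).add_const 1
    rw [zero_mul, zero_add] at h1
    refine h1.congr' ?_
    filter_upwards [tendsto_loglog.eventually_gt_atTop 0] with N hN
    simp only [Function.comp_apply]
    rw [← div_eq_mul_inv, div_div, Real.mul_self_sqrt hN.le, sub_div, div_self hN.ne']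
    ring
  have hw1 : ∀ N, ‖1 + w N‖ ≤ 1 := fun N => by
    rw [hwdef, add_sub_cancel, Complex.norm_exp_ofReal_mul_I]
  have hws : ∀ N, ‖w N‖ ≤ |s N| := fun N => by
    rw [hwdef]
    simp only
    rw [mul_comm, ← Real.norm_eq_abs]
    exact Real.norm_exp_I_mul_ofReal_sub_one_le
  -- the limit of the model
  have hmodel : Tendsto (fun N => Complex.exp (w N * (L N : ℂ) - ((s N * L N : ℝ) : ℂ) * Complex.I))
      atTop (𝓝 (Complex.exp (-(t : ℂ) ^ 2 / 2))) := by
    refine (Complex.continuous_exp.tendsto _).comp ?_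
    have hmain : Tendsto (fun N => ((-(s N ^ 2 * L N) / 2 : ℝ) : ℂ)) atTop
        (𝓝 (-(t : ℂ) ^ 2 / 2)) := by
      have h1 := ((Complex.continuous_ofReal.tendsto _).comp
        ((hratio.const_mul (-(t ^ 2) / 2))))
      rw [mul_one, Complex.ofReal_div, Complex.ofReal_neg, Complex.ofReal_pow,
        Complex.ofReal_ofNat] at h1
      refine h1.congr' ?_
      filter_upwards [tendsto_loglog.eventually_gt_atTop 0] with N hN
      simp only [Function.comp_apply, hsdef]
      congr 1
      rw [div_pow, Real.sq_sqrt hN.le]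
      field_simp
    refine hmain.congr_dist ?_
    have hbound : Tendsto (fun N => |s N| * (t ^ 2 * (L N / loglog N))) atTop (𝓝 0) := by
      simpa using hs.abs.mul ((hratio.const_mul (t ^ 2)))
    refine squeeze_zero' (Eventually.of_forall fun N => dist_nonneg) ?_ hbound
    filter_upwards [(hs.abs.eventually_le_const (show |(0 : ℝ)| < 1 by simp)),
      tendsto_loglog.eventually_gt_atTop 0] with N hs1 hN
    rw [dist_eq_norm, norm_sub_rev]
    have hexp := Complex.exp_bound (x := (s N : ℂ) * Complex.I)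
      (by simpa using hs1) (show 0 < 3 by norm_num)
    have hL0 : 0 ≤ L N := hLdef ▸ recipSum_nonneg _
    have e : w N * (L N : ℂ) - ((s N * L N : ℝ) : ℂ) * Complex.I -
        ((-(s N ^ 2 * L N) / 2 : ℝ) : ℂ) =
        (L N : ℂ) * (Complex.exp ((s N : ℂ) * Complex.I) -
          ∑ m ∈ range 3, ((s N : ℂ) * Complex.I) ^ m / m.factorial) := by
      simp only [hwdef, sum_range_succ, sum_range_zero, Nat.factorial]
      push_cast
      simp only [mul_pow, Complex.I_sq, pow_zero, pow_one]
      ring
    rw [e, norm_mul, Complex.norm_real, Real.norm_of_nonneg hL0]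
    refine (mul_le_mul_of_nonneg_left hexp hL0).trans ?_
    rw [norm_mul, Complex.norm_I, mul_one, Complex.norm_real, Real.norm_eq_abs]
    have e2 : |s N| * (t ^ 2 * (L N / loglog N)) = L N * (|s N| ^ 3) := by
      rw [pow_succ' |s N| 2, sq_abs, hsdef]
      simp only
      rw [div_pow, Real.sq_sqrt hN.le]
      ring
    rw [e2]
    refine mul_le_mul_of_nonneg_left (mul_le_of_le_one_right (by positivity) ?_) hL0
    norm_num [Nat.factorial]
  -- the truncated average against the model
  have htrunc : Tendsto (fun N : ℕ => (∑ n ∈ Icc 1 N, Complex.exp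
      ((t * ((((primesUpTo (cut N)).filter (· ∣ n)).card : ℝ) - recipSum (cut N)) /
        Real.sqrt (loglog N) : ℝ) * Complex.I)) / (N : ℂ))
      atTop (𝓝 (Complex.exp (-(t : ℂ) ^ 2 / 2))) := by
    obtain ⟨K, hKdef⟩ : ∃ K : ℕ → ℕ,
        K = fun N => ⌈(12 * |t| + 1) * Real.sqrt (loglog N)⌉₊ := ⟨_, rfl⟩
    have hK : Tendsto K atTop atTop := hKdef ▸ tendsto_nat_ceil_atTop.comp
      ((Real.tendsto_sqrt_atTop.comp tendsto_loglog).const_mul_atTop (by positivity))
    have herr : Tendsto (fun N : ℕ => 3 * (1 / 2 : ℝ) ^ K N +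
        (K N + 1) * (2 * (((primesUpTo (cut N)).card : ℝ) + 1)) ^ K N / N + s N ^ 2)
        atTop (𝓝 0) := by
      have h1 := ((tendsto_pow_atTop_nhds_zero_of_lt_one (by norm_num : (0 : ℝ) ≤ 1 / 2)
        (by norm_num)).comp hK).const_mul (3 : ℝ)
      rw [mul_zero] at h1
      have h2 : Tendsto (fun N : ℕ => (K N + 1) * (2 * (((primesUpTo (cut N)).card : ℝ) + 1)) ^ K N
          / N) atTop (𝓝 0) := by
        have hlogN : Tendsto (fun N : ℕ => Real.log N) atTop atTop :=
          Real.tendsto_log_atTop.comp tendsto_natCast_atTop_atTop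
        refine squeeze_zero' (Eventually.of_forall fun N => by positivity) ?_
          (Real.tendsto_exp_atBot.comp (hlogN.const_mul_atTop_of_neg
            (show (-(1 / 4 : ℝ)) < 0 by norm_num)))
        filter_upwards [eventually_cut,
          (Real.tendsto_sqrt_atTop.comp tendsto_loglog).eventually_ge_atTop (5 * (12 * |t| + 2)),
          (Real.tendsto_sqrt_atTop.comp tendsto_loglog).eventually_ge_atTop 1,
          (Real.isLittleO_log_id_atTop.comp_tendsto hlogN).bound
            (show (0 : ℝ) < 1 / (20 * (12 * |t| + 2)) by positivity),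
          eventually_ge_atTop 3] with N hc hsq hsq1 hlo hN3
        simp only [Function.comp_apply, id_eq, Real.norm_eq_abs] at hsq hsq1 hlo ⊢
        obtain ⟨R, hR⟩ : ∃ R, R = Real.sqrt (loglog N) := ⟨_, rfl⟩
        rw [← hR] at hsq hsq1
        have hR2 : R ^ 2 = loglog N := by
          rw [hR, Real.sq_sqrt]
          by_contra h
          rw [hR, Real.sqrt_eq_zero'.2 (not_le.1 h).le] at hsq1
          norm_num at hsq1
        obtain ⟨T, hT⟩ : ∃ T, T = 12 * |t| + 2 := ⟨_, rfl⟩
        rw [← hT] at hsq hlo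
        have hT2 : 2 ≤ T := by linarith [abs_nonneg t]
        have hlog0 : 0 < Real.log N := Real.log_pos (Nat.one_lt_cast.2 (by omega))
        have hKle : (K N : ℝ) ≤ T * R := by
          rw [hKdef]
          simp only
          rw [← hR]
          refine (Nat.ceil_lt_add_one (by positivity)).le.trans ?_
          rw [hT, show (12 * |t| + 2) * R = (12 * |t| + 1) * R + R by ring]
          linarith
        have hcard : 2 * (((primesUpTo (cut N)).card : ℝ) + 1) ≤
            Real.exp (Real.log N / loglog N + 2) := by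
          rw [Real.exp_add]
          have h1 : ((primesUpTo (cut N)).card : ℝ) ≤ cut N := by
            refine Nat.cast_le.2 ((card_filter_le _ _).trans ?_)
            rw [Nat.card_Icc]
            omega
          have h2 : (cut N : ℝ) ≤ Real.exp (Real.log N / loglog N) :=
            Nat.floor_le (Real.exp_pos _).le
          have h3 : (2 : ℝ) ≤ cut N := Nat.ofNat_le_cast.2 hc.1
          have h4 : (4 : ℝ) ≤ Real.exp 2 := by
            rw [show (2 : ℝ) = 1 + 1 by norm_num, Real.exp_add]
            nlinarith [Real.exp_one_gt_d9]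
          have h5 := mul_le_mul h2 h4 (by norm_num) (Real.exp_pos _).le
          linarith
        have h5 : (K N : ℝ) + 1 ≤ Real.exp (K N) := Real.add_one_le_exp _
        rw [div_le_iff₀ (Nat.cast_pos.2 (by omega))]
        refine (mul_le_mul h5 (pow_le_pow_left₀ (by positivity) hcard _) (by positivity)
          (Real.exp_pos _).le).trans ?_
        rw [← Real.exp_nat_mul, ← Real.exp_add]
        nth_rewrite 3 [← Real.exp_log (Nat.cast_pos.2 (show 0 < N by omega) : (0 : ℝ) < N)]
        rw [← Real.exp_add, Real.exp_le_exp]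
        have h6 : (K N : ℝ) * (Real.log N / loglog N) ≤ Real.log N / 5 := by
          refine (mul_le_mul_of_nonneg_right hKle
            (div_nonneg hlog0.le (hR2 ▸ sq_nonneg R))).trans ?_
          rw [← hR2, div_eq_mul_inv, sq, mul_inv,
            show T * R * (Real.log N * (R⁻¹ * R⁻¹)) = Real.log N * (T * R⁻¹ * (R * R⁻¹)) by ring,
            mul_inv_cancel₀ (by linarith), mul_one, div_eq_mul_inv]
          refine mul_le_mul_of_nonneg_left ?_ hlog0.le
          rw [← div_eq_mul_inv, div_le_iff₀ (by linarith)]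
          linarith
        have h7 : (K N : ℝ) ≤ Real.log N / 20 := by
          refine hKle.trans ((mul_le_mul_of_nonneg_left (show R ≤ R ^ 2 by
            rw [sq]; exact le_mul_of_one_le_left (by linarith) hsq1) (by linarith)).trans ?_)
          rw [hR2]
          have h := (le_abs_self _).trans hlo
          rw [abs_of_pos hlog0, one_div_mul_eq_div, le_div_iff₀ (by positivity)] at h
          rw [le_div_iff₀ (by norm_num : (0 : ℝ) < 20)]
          show T * loglog N * 20 ≤ _
          rw [loglog]
          linarith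
        linarith
      simpa using (h1.add h2).add (hs.pow 2)
    refine hmodel.congr_dist (squeeze_zero'
      (Eventually.of_forall fun N => dist_nonneg) ?_ herr)
    filter_upwards [eventually_gt_atTop 0, hs.abs.eventually_le_const (show |(0 : ℝ)| < 1 by simp),
      tendsto_loglog.eventually_gt_atTop 0,
      hratio.eventually_le_const (show (1 : ℝ) < 2 by norm_num)] with N hN hs1 hl hLl
    have hP : ∀ q ∈ primesUpTo (cut N), q.Prime := fun q hq => (mem_primesUpTo.1 hq).1
    have hLeq : L N = ∑ q ∈ primesUpTo (cut N), (q : ℝ)⁻¹ := by rw [hLdef]; rfl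
    have hL0 : 0 ≤ L N := hLdef ▸ recipSum_nonneg _
    have hKN : 6 * (‖w N‖ * ∑ q ∈ primesUpTo (cut N), (q : ℝ)⁻¹) ≤ K N := by
      rw [← hLeq, hKdef]
      refine le_trans ?_ (Nat.le_ceil _)
      have h1 := mul_le_mul_of_nonneg_right (hws N) hL0
      have h2 : |s N| * L N ≤ 2 * |t| * Real.sqrt (loglog N) := by
        rw [hsdef, abs_div, abs_of_nonneg (Real.sqrt_nonneg _), div_mul_eq_mul_div,
          div_le_iff₀ (Real.sqrt_pos.2 hl), mul_assoc (2 * |t|), Real.mul_self_sqrt hl.le]
        rw [div_le_iff₀ hl] at hLl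
        have := mul_le_mul_of_nonneg_left hLl (abs_nonneg t)
        linarith
      linarith [Real.sqrt_nonneg (loglog N)]
    have hA := norm_sum_pow_sub_le hP (hw1 N) hKN hN
    have hB := norm_prod_sub_exp_le hP (hw1 N) ((hws N).trans hs1)
    rw [dist_eq_norm, norm_sub_rev]
    have e1 : (∑ n ∈ Icc 1 N, Complex.exp
        ((t * ((((primesUpTo (cut N)).filter (· ∣ n)).card : ℝ) - recipSum (cut N)) /
          Real.sqrt (loglog N) : ℝ) * Complex.I)) / (N : ℂ) =
        Complex.exp (-((s N * L N : ℝ) : ℂ) * Complex.I) *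
          ((∑ n ∈ Icc 1 N, (1 + w N) ^ ((primesUpTo (cut N)).filter (· ∣ n)).card) / (N : ℂ)) := by
      rw [mul_div_assoc', mul_sum]
      congr 1
      refine sum_congr rfl fun n _ => ?_
      rw [hwdef, add_sub_cancel, ← Complex.exp_nat_mul, ← Complex.exp_add, hLdef, hsdef]
      congr 1
      push_cast
      ring
    have e2 : Complex.exp (w N * (L N : ℂ) - ((s N * L N : ℝ) : ℂ) * Complex.I) =
        Complex.exp (-((s N * L N : ℝ) : ℂ) * Complex.I) *
          Complex.exp (w N * ∑ q ∈ primesUpTo (cut N), (q : ℂ)⁻¹) := by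
      rw [← Complex.exp_add, hLeq]
      congr 1
      push_cast
      ring
    rw [e1, e2, ← mul_sub, norm_mul, ← Complex.ofReal_neg, Complex.norm_exp_ofReal_mul_I, one_mul]
    refine (norm_sub_le_norm_sub_add_norm_sub _ _ _).trans (add_le_add hA (hB.trans ?_))
    rw [← sq_abs (s N)]
    exact pow_le_pow_left₀ (norm_nonneg _) (hws N) 2
  refine htrunc.congr_dist ?_
  have hb : Tendsto (fun N : ℕ => |t| * ((2 * |(L N - loglog N) / Real.sqrt (loglog N)|) +
      C / Real.sqrt (loglog N))) atTop (𝓝 0) := by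
    have h := ((hL.abs.const_mul 2).add ((tendsto_const_nhds (x := C)).div_atTop
      (Real.tendsto_sqrt_atTop.comp tendsto_loglog))).const_mul |t|
    simpa using h
  refine squeeze_zero' (Eventually.of_forall fun N => dist_nonneg) ?_ hb
  filter_upwards [eventually_cut, eventually_ge_atTop 2, tendsto_loglog.eventually_gt_atTop 0]
    with N hc hN hl
  rw [dist_eq_norm, norm_sub_rev]
  refine (norm_charAvg_sub_le N (by omega) t hc.2.1 hl).trans ?_
  have h1 := (abs_le.1 (hC N hN)).2
  rw [hLdef, abs_div, abs_of_pos (Real.sqrt_pos.2 hl), ← mul_div_assoc, ← add_div, mul_div_assoc']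
  refine div_le_div_of_nonneg_right (mul_le_mul_of_nonneg_left ?_ (abs_nonneg t))
    (Real.sqrt_nonneg _)
  have := neg_abs_le (recipSum (cut N) - loglog N)
  rw [loglog] at this ⊢
  linarith

/-- The uniform measure on the values. -/
def omegaMeasure (N : ℕ) : Measure ℝ :=
  ((N + 1 : ℕ) : ENNReal)⁻¹ • ∑ n ∈ Icc 1 (N + 1), Measure.dirac (normOmega (N + 1) n)

instance isProbabilityMeasure_omegaMeasure (N : ℕ) : IsProbabilityMeasure (omegaMeasure N) := by
  refine ⟨?_⟩
  rw [omegaMeasure, Measure.smul_apply, Measure.finsetSum_apply, smul_eq_mul]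
  simp only [measure_univ, sum_const, Nat.card_Icc, Nat.add_sub_cancel, nsmul_one]
  exact ENNReal.inv_mul_cancel (by simp) (ENNReal.natCast_ne_top _)

theorem charFun_omegaMeasure (N : ℕ) (t : ℝ) :
    charFun (omegaMeasure N) t = charAvg (N + 1) t := by
  rw [charFun_apply_real, omegaMeasure, integral_smul_measure,
    integral_finsetSum_measure fun n _ => integrable_dirac (by simp), charAvg]
  simp only [integral_dirac]
  rw [ENNReal.toReal_inv, ENNReal.toReal_natCast, Complex.real_smul, div_eq_inv_mul]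
  push_cast
  rfl

/-- **Erdős and Kac.** -/
theorem tendsto_omega_le (x : ℝ) :
    Tendsto (fun N : ℕ => (((Icc 1 N).filter fun n : ℕ =>
      (n.primeFactors.card : ℝ) - loglog N ≤ x * Real.sqrt (loglog N)).card : ℝ) / N)
      atTop (𝓝 ((ProbabilityTheory.gaussianReal 0 1).real (Set.Iic x))) := by
  rw [← tendsto_add_atTop_iff_nat 1]
  let μs : ℕ → ProbabilityMeasure ℝ := fun N => ⟨omegaMeasure N, inferInstance⟩
  let μ : ProbabilityMeasure ℝ := ⟨ProbabilityTheory.gaussianReal 0 1, inferInstance⟩
  have hconv : Tendsto μs atTop (𝓝 μ) := by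
    refine ProbabilityMeasure.tendsto_iff_tendsto_charFun.2 fun t => ?_
    show Tendsto (fun N => charFun (omegaMeasure N) t) atTop
      (𝓝 (charFun (ProbabilityTheory.gaussianReal 0 1) t))
    simp only [charFun_omegaMeasure, ProbabilityTheory.charFun_gaussianReal, Complex.ofReal_zero,
      mul_zero, zero_mul, zero_sub, NNReal.coe_one, Complex.ofReal_one, one_mul, ← neg_div]
    exact (tendsto_charAvg t).comp (tendsto_add_atTop_nat 1)
  have hnull : (μ : Measure ℝ) (frontier (Set.Iic x)) = 0 := by
    have := ProbabilityTheory.nullSingletonClass_gaussianReal (μ := 0)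
      (one_ne_zero : (1 : NNReal) ≠ 0)
    rw [frontier_Iic]
    show (ProbabilityTheory.gaussianReal 0 1) {x} = 0
    exact measure_singleton x
  have h := (ENNReal.tendsto_toReal (measure_ne_top _ _)).comp
    (ProbabilityMeasure.tendsto_measure_of_null_frontier_of_tendsto' hconv hnull)
  refine (h.congr' ?_)
  filter_upwards [(tendsto_loglog.comp (tendsto_add_atTop_nat 1)).eventually_gt_atTop 0] with N hN
  simp only [Function.comp_apply] at hN ⊢
  show ((omegaMeasure N) (Set.Iic x)).toReal = _
  rw [omegaMeasure, Measure.smul_apply, Measure.finsetSum_apply, smul_eq_mul, ENNReal.toReal_mul,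
    ENNReal.toReal_inv, ENNReal.toReal_natCast, div_eq_inv_mul, card_filter]
  congr 1
  simp only [Measure.dirac_apply' _ measurableSet_Iic, Set.indicator_apply, Set.mem_Iic,
    Pi.one_apply]
  rw [ENNReal.toReal_sum fun _ _ => by split_ifs <;> simp, Nat.cast_sum]
  refine sum_congr rfl fun n _ => ?_
  simp only [normOmega, div_le_iff₀ (Real.sqrt_pos.2 hN)]
  split_ifs <;> simp

end FA.ErdosKac
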