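import Fermat.Agent.PrimesMinusOne.TotientSum
import Mathlib.Analysis.SpecialFunctions.Log.Basic
import Mathlib.Analysis.PSeries
import Mathlib.NumberTheory.ArithmeticFunction.VonMangoldt
import Mathlib.Tactic

/-!
# Mertens' second theorem

`∑_{p ≤ n} 1 / p = log log n + O (1)`, by Abel summation from Mertens' first theorem.
-/

set_option autoImplicit false

noncomputable section

namespace FA.ErdosKac

open Finset
open scoped ArithmeticFunction.vonMangoldt

/-- The primes `≤ n`. -/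
def primesUpTo (n : ℕ) : Finset ℕ := (Icc 1 n).filter Nat.Prime

theorem mem_primesUpTo {n q : ℕ} : q ∈ primesUpTo n ↔ q.Prime ∧ q ≤ n := by
  simp only [primesUpTo, mem_filter, mem_Icc]
  exact ⟨fun h => ⟨h.2, h.1.2⟩, fun h => ⟨⟨h.1.one_le, h.2⟩, h.1⟩⟩

/-- `∑_{p ≤ n} 1 / p`. -/
def recipSum (n : ℕ) : ℝ := ∑ q ∈ primesUpTo n, (q : ℝ)⁻¹

theorem log_div_le {q : ℕ} (hq : 2 ≤ q) (k : ℕ) :
    ∑ i ∈ Icc 2 k, Real.log q / (q : ℝ) ^ i ≤ 2 * (Real.log q / (q : ℝ) ^ 2) := by
  have h0 : (2 : ℝ) ≤ q := Nat.ofNat_le_cast.2 hq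
  calc ∑ i ∈ Icc 2 k, Real.log q / (q : ℝ) ^ i
      ≤ ∑ i ∈ Icc 2 k, Real.log q / (q : ℝ) ^ 2 * (1 / 2 : ℝ) ^ (i - 2) := by
        refine sum_le_sum fun i hi => ?_
        rw [mem_Icc] at hi
        obtain ⟨j, rfl⟩ := Nat.exists_eq_add_of_le hi.1
        rw [Nat.add_sub_cancel_left, pow_add, ← div_div, one_div, inv_pow, ← div_eq_mul_inv]
        exact div_le_div_of_nonneg_left (div_nonneg (Real.log_nonneg (by linarith)) (by positivity))
          (by positivity) (pow_le_pow_left₀ (by norm_num) h0 j)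
    _ ≤ Real.log q / (q : ℝ) ^ 2 * 2 := by
        rw [← mul_sum]
        refine mul_le_mul_of_nonneg_left ?_
          (div_nonneg (Real.log_nonneg (by linarith)) (by positivity))
        rw [← Ico_succ_right_eq_Icc, sum_Ico_eq_sum_range]
        simp only [Nat.add_sub_cancel_left]
        exact sum_geometric_two_le _
    _ = 2 * (Real.log q / (q : ℝ) ^ 2) := mul_comm _ _

/-- Mertens' first theorem, over the primes. -/
theorem exists_abs_sum_log_div_sub_le : ∃ C : ℝ, ∀ n : ℕ, 1 ≤ n →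
    |∑ q ∈ primesUpTo n, Real.log q / q - Real.log n| ≤ C := by
  have hsum : Summable fun q : ℕ => Real.log q / (q : ℝ) ^ 2 := by
    refine Summable.of_nonneg_of_le (fun q => div_nonneg (Real.log_natCast_nonneg q)
      (by positivity)) (fun q => ?_)
      ((Real.summable_one_div_nat_rpow.2 (show (1 : ℝ) < 3 / 2 by norm_num)).mul_left 2)
    rcases Nat.eq_zero_or_pos q with rfl | hq
    · simp
    have h0 : (0 : ℝ) < q := Nat.cast_pos.2 hq
    have h1 := Real.log_le_rpow_div h0.le (show (0 : ℝ) < 1 / 2 by norm_num)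
    rw [div_le_iff₀ (pow_pos h0 2)]
    refine h1.trans (le_of_eq ?_)
    rw [← Real.rpow_natCast (q : ℝ) 2, mul_assoc, div_mul_eq_mul_div, one_mul,
      ← Real.rpow_sub h0]
    norm_num
    ring
  obtain ⟨S, hS⟩ : ∃ S, S = ∑' q : ℕ, Real.log q / (q : ℝ) ^ 2 := ⟨_, rfl⟩
  refine ⟨6 + 2 * S, fun n hn => ?_⟩
  have hM := abs_le.1 (PrimesMinusOne.abs_sum_vonMangoldt_div_sub_le hn)
  have hsplit : ∑ d ∈ Ioc 0 n, Λ d / d = ∑ q ∈ primesUpTo n, Real.log q / q +
      ∑ d ∈ (Ioc 0 n).filter (fun d => ¬ d.Prime), Λ d / d := by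
    rw [← sum_filter_add_sum_filter_not (Ioc 0 n) Nat.Prime]
    congr 1
    exact sum_congr rfl fun q hq => by
      rw [ArithmeticFunction.vonMangoldt_apply_prime (mem_filter.1 hq).2]
  have hpos : 0 ≤ ∑ d ∈ (Ioc 0 n).filter (fun d => ¬ d.Prime), Λ d / d :=
    sum_nonneg fun d _ => div_nonneg ArithmeticFunction.vonMangoldt_nonneg (Nat.cast_nonneg d)
  have hle : ∑ d ∈ (Ioc 0 n).filter (fun d => ¬ d.Prime), Λ d / d ≤ 2 * S := by
    calc ∑ d ∈ (Ioc 0 n).filter (fun d => ¬ d.Prime), Λ d / d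
        ≤ ∑ d ∈ (primesUpTo n ×ˢ Icc 2 n).image (fun x => x.1 ^ x.2), Λ d / d := by
          rw [← sum_filter_of_ne (p := IsPrimePow)
            (s := (Ioc 0 n).filter fun d => ¬ d.Prime) fun d _ hd => by
              by_contra h
              exact hd (by rw [ArithmeticFunction.vonMangoldt_eq_zero_iff.2 h, zero_div])]
          refine sum_le_sum_of_subset_of_nonneg (fun d hd => ?_) fun d _ _ =>
            div_nonneg ArithmeticFunction.vonMangoldt_nonneg (Nat.cast_nonneg d)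
          simp only [mem_filter, mem_Ioc] at hd
          obtain ⟨⟨⟨-, hdn⟩, hnp⟩, hpp⟩ := hd
          obtain ⟨q, k, hq, hk, rfl⟩ := (isPrimePow_nat_iff d).1 hpp
          have hk2 : 2 ≤ k := by
            by_contra h
            exact hnp (by rwa [show k = 1 by omega, pow_one])
          exact mem_image.2 ⟨(q, k), mem_product.2 ⟨mem_primesUpTo.2 ⟨hq,
            (Nat.le_self_pow (by omega) q).trans hdn⟩, mem_Icc.2 ⟨hk2,
            (Nat.lt_pow_self hq.one_lt).le.trans hdn⟩⟩, rfl⟩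
      _ ≤ ∑ x ∈ primesUpTo n ×ˢ Icc 2 n, Λ (x.1 ^ x.2) / ((x.1 ^ x.2 : ℕ) : ℝ) :=
          sum_image_le_of_nonneg fun d _ =>
            div_nonneg ArithmeticFunction.vonMangoldt_nonneg (Nat.cast_nonneg d)
      _ = ∑ q ∈ primesUpTo n, ∑ i ∈ Icc 2 n, Real.log q / (q : ℝ) ^ i := by
          rw [sum_product]
          refine sum_congr rfl fun q hq => sum_congr rfl fun i hi => ?_
          rw [ArithmeticFunction.vonMangoldt_apply_pow (by rw [mem_Icc] at hi; omega),
            ArithmeticFunction.vonMangoldt_apply_prime (mem_primesUpTo.1 hq).1]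
          push_cast
          rfl
      _ ≤ ∑ q ∈ primesUpTo n, 2 * (Real.log q / (q : ℝ) ^ 2) :=
          sum_le_sum fun q hq => log_div_le (mem_primesUpTo.1 hq).1.two_le n
      _ ≤ 2 * S := by
          rw [← mul_sum, hS]
          refine mul_le_mul_of_nonneg_left (hsum.sum_le_tsum _ fun q _ =>
            div_nonneg (Real.log_natCast_nonneg q) (by positivity)) two_pos.le
  rw [hsplit] at hM
  rw [abs_le]
  constructor <;> linarith

/-- **Mertens' second theorem.** -/
theorem exists_abs_recipSum_sub_le : ∃ C : ℝ, ∀ n : ℕ, 2 ≤ n →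
    |recipSum n - Real.log (Real.log n)| ≤ C := by
  obtain ⟨C, hC⟩ := exists_abs_sum_log_div_sub_le
  have hC0 : 0 ≤ C := (abs_nonneg _).trans (hC 1 le_rfl)
  obtain ⟨G, hG⟩ : ∃ G : ℕ → ℝ, G = fun n => ∑ q ∈ primesUpTo n, Real.log q / q := ⟨_, rfl⟩
  obtain ⟨l, hl⟩ : ∃ l : ℕ → ℝ, l = fun n : ℕ => Real.log n := ⟨_, rfl⟩
  have hlpos : ∀ k, 2 ≤ k → 0 < l k := fun k hk =>
    hl ▸ Real.log_pos (Nat.one_lt_cast.2 (by omega))
  -- Abel summation
  have habel : ∀ n, 2 ≤ n → recipSum n =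
      G n / l n + ∑ k ∈ Ico 2 n, G k * ((l k)⁻¹ - (l (k + 1))⁻¹) := by
    intro n hn
    induction n, hn using Nat.le_induction with
    | base =>
      have e : primesUpTo 2 = {2} := by decide
      simp [recipSum, hG, hl, e]
      field_simp
    | succ n hn ih =>
      rw [sum_Ico_succ_top hn]
      have hn0 : l n ≠ 0 := (hlpos n hn).ne'
      have hn1 : l (n + 1) ≠ 0 := (hlpos (n + 1) (by omega)).ne'
      have key : recipSum (n + 1) - recipSum n = (G (n + 1) - G n) / l (n + 1) := by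
        rw [hG, recipSum, recipSum]
        by_cases hp : (n + 1).Prime
        · have e : primesUpTo (n + 1) = insert (n + 1) (primesUpTo n) := by
            ext q
            simp only [mem_insert, mem_primesUpTo]
            constructor
            · rintro ⟨h1, h2⟩
              rcases (show q = n + 1 ∨ q ≤ n by omega) with h | h
              · exact Or.inl h
              · exact Or.inr ⟨h1, h⟩
            · rintro (rfl | ⟨h1, h2⟩)
              · exact ⟨hp, le_rfl⟩
              · exact ⟨h1, by omega⟩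
          have hni : n + 1 ∉ primesUpTo n := fun h => by
            have := (mem_primesUpTo.1 h).2
            omega
          simp only
          rw [e, sum_insert hni, sum_insert hni, add_sub_cancel_right, add_sub_cancel_right, hl]
          simp only
          rw [div_div, mul_comm, ← div_div,
            div_self (Real.log_pos (Nat.one_lt_cast.2 (show 1 < n + 1 by omega))).ne', one_div]
        · have e : primesUpTo (n + 1) = primesUpTo n := by
            ext q
            simp only [mem_primesUpTo]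
            constructor
            · rintro ⟨h1, h2⟩
              refine ⟨h1, ?_⟩
              rcases (show q = n + 1 ∨ q ≤ n by omega) with rfl | h
              · exact absurd h1 hp
              · exact h
            · rintro ⟨h1, h2⟩
              exact ⟨h1, by omega⟩
          simp [e]
      rw [show recipSum (n + 1) = recipSum n + (G (n + 1) - G n) / l (n + 1) by linarith, ih]
      field_simp
      ring
  have hlog2 : 0 < Real.log 2 := Real.log_pos (by norm_num)
  refine ⟨1 + C / Real.log 2 + C / Real.log 2 + |Real.log (Real.log 2)| + (Real.log 2)⁻¹ ^ 2,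
    fun n hn => ?_⟩
  have hG' : ∀ k, 1 ≤ k → |G k - l k| ≤ C := fun k hk => by rw [hG, hl]; exact hC k hk
  have hfirst : |G n / l n - 1| ≤ C / Real.log 2 := by
    rw [div_sub_one (hlpos n hn).ne', abs_div, abs_of_pos (hlpos n hn)]
    exact div_le_div₀ hC0 (hG' n (by omega)) hlog2
      (hl ▸ Real.log_le_log two_pos (Nat.ofNat_le_cast.2 hn))
  have hmid : |∑ k ∈ Ico 2 n, G k * ((l k)⁻¹ - (l (k + 1))⁻¹) -
      ∑ k ∈ Ico 2 n, l k * ((l k)⁻¹ - (l (k + 1))⁻¹)| ≤ C / Real.log 2 := by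
    rw [← sum_sub_distrib]
    refine (abs_sum_le_sum_abs _ _).trans ((sum_le_sum (g := fun k =>
      C * ((l k)⁻¹ - (l (k + 1))⁻¹)) fun k hk => ?_).trans ?_)
    · rw [mem_Ico] at hk
      have hle : (l (k + 1))⁻¹ ≤ (l k)⁻¹ := inv_anti₀ (hlpos k hk.1)
        (hl ▸ Real.log_le_log (Nat.cast_pos.2 (by omega)) (Nat.cast_le.2 (Nat.le_succ k)))
      rw [← sub_mul, abs_mul, abs_of_nonneg (sub_nonneg.2 hle)]
      exact mul_le_mul_of_nonneg_right (hG' k (by omega)) (sub_nonneg.2 hle)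
    · rw [← mul_sum, div_eq_mul_inv]
      refine mul_le_mul_of_nonneg_left ?_ hC0
      have htel : ∑ k ∈ Ico 2 n, ((l k)⁻¹ - (l (k + 1))⁻¹) = (l 2)⁻¹ - (l n)⁻¹ := by
        have h := sum_Ico_sub (fun k => (l k)⁻¹) hn
        rw [← neg_inj, neg_sub, ← h, ← sum_neg_distrib]
        simp
      rw [htel]
      have : l 2 = Real.log 2 := by rw [hl]; simp
      rw [this]
      linarith [inv_pos.2 (hlpos n hn)]
  -- the main term
  have hterm : ∀ k ∈ Ico 2 n, Real.log (l (k + 1)) - Real.log (l k) -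
        (Real.log 2)⁻¹ ^ 2 * (((k : ℝ) - 1)⁻¹ - (k : ℝ)⁻¹) ≤
      l k * ((l k)⁻¹ - (l (k + 1))⁻¹) ∧
      l k * ((l k)⁻¹ - (l (k + 1))⁻¹) ≤ Real.log (l (k + 1)) - Real.log (l k) := by
    intro k hk
    rw [mem_Ico] at hk
    obtain ⟨a, ha⟩ : ∃ a, a = l k := ⟨_, rfl⟩
    obtain ⟨b, hb⟩ : ∃ b, b = l (k + 1) := ⟨_, rfl⟩
    rw [← ha, ← hb]
    have ha0 : 0 < a := ha ▸ hlpos k hk.1
    have hk2 : (2 : ℝ) ≤ k := Nat.ofNat_le_cast.2 hk.1
    have hab : a ≤ b := by
      rw [ha, hb, hl]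
      exact Real.log_le_log (by linarith) (Nat.cast_le.2 (Nat.le_succ k))
    have hb0 : 0 < b := ha0.trans_le hab
    have h2a : Real.log 2 ≤ a := ha ▸ hl ▸ Real.log_le_log two_pos hk2
    have hdiff : b - a ≤ (k : ℝ)⁻¹ := by
      rw [ha, hb, hl]
      simp only
      rw [← Real.log_div (Nat.cast_ne_zero.2 (by omega)) (Nat.cast_ne_zero.2 (by omega))]
      refine (Real.log_le_sub_one_of_pos (by positivity)).trans (le_of_eq ?_)
      push_cast
      field_simp
      ring
    have e : a * (a⁻¹ - b⁻¹) = 1 - a / b := by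
      rw [mul_sub, mul_inv_cancel₀ ha0.ne', div_eq_mul_inv]
    rw [e, ← Real.log_div hb0.ne' ha0.ne']
    have h1 := Real.log_le_sub_one_of_pos (div_pos hb0 ha0)
    have h2 := Real.one_sub_inv_le_log_of_pos (div_pos hb0 ha0)
    rw [inv_div] at h2
    refine ⟨?_, h2⟩
    have h3 : b / a - 1 - (1 - a / b) ≤ (Real.log 2)⁻¹ ^ 2 * (((k : ℝ) - 1)⁻¹ - (k : ℝ)⁻¹) := by
      rw [show b / a - 1 - (1 - a / b) = (b - a) ^ 2 / (a * b) by field_simp, inv_pow,
        ← div_eq_inv_mul]
      refine div_le_div₀ ?_ ?_ (by positivity) ?_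
      · rw [sub_nonneg]
        exact inv_anti₀ (by linarith) (by linarith)
      · refine (pow_le_pow_left₀ (sub_nonneg.2 hab) hdiff 2).trans ?_
        rw [inv_sub_inv (by linarith) (by linarith), sub_sub_cancel, one_div, inv_pow]
        exact inv_anti₀ (mul_pos (by linarith) (by linarith)) (by nlinarith)
      · rw [sq]
        exact mul_le_mul h2a (h2a.trans hab) hlog2.le ha0.le
    linarith
  have hlo := sum_le_sum fun k hk => (hterm k hk).1
  have hhi := sum_le_sum fun k hk => (hterm k hk).2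
  rw [sum_sub_distrib, sum_Ico_sub (fun k => Real.log (l k)) hn, ← mul_sum] at hlo
  rw [sum_Ico_sub (fun k => Real.log (l k)) hn] at hhi
  have htel2 : ∑ k ∈ Ico 2 n, (((k : ℝ) - 1)⁻¹ - (k : ℝ)⁻¹) ≤ 1 := by
    have h := sum_Ico_sub (fun k : ℕ => ((k : ℝ) - 1)⁻¹) hn
    have e : ∑ k ∈ Ico 2 n, (((k : ℝ) - 1)⁻¹ - (k : ℝ)⁻¹) =
        -∑ k ∈ Ico 2 n, ((((k + 1 : ℕ) : ℝ) - 1)⁻¹ - ((k : ℝ) - 1)⁻¹) := by
      rw [← sum_neg_distrib]
      exact sum_congr rfl fun k _ => by push_cast; rw [add_sub_cancel_right, neg_sub]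
    rw [e, h]
    have hn' : (2 : ℝ) ≤ n := Nat.ofNat_le_cast.2 hn
    have : 0 ≤ ((n : ℝ) - 1)⁻¹ := inv_nonneg.2 (by linarith)
    norm_num
    linarith
  have h4 := mul_le_mul_of_nonneg_left htel2 (show 0 ≤ (Real.log 2)⁻¹ ^ 2 by positivity)
  have hl2 : l 2 = Real.log 2 := by rw [hl]; simp
  have hln : Real.log (l n) = Real.log (Real.log n) := by rw [hl]
  rw [habel n hn, ← hln]
  rw [hl2] at hlo hhi
  rw [abs_le] at hfirst hmid ⊢
  obtain ⟨b1, b2⟩ := hfirst
  obtain ⟨b3, b4⟩ := hmid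
  have := le_abs_self (Real.log (Real.log 2))
  have := neg_abs_le (Real.log (Real.log 2))
  constructor <;> linarith

theorem recipSum_nonneg (n : ℕ) : 0 ≤ recipSum n :=
  sum_nonneg fun q _ => inv_nonneg.2 (Nat.cast_nonneg q)

end FA.ErdosKac
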