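import Fermat.Agent.ErdosKac.Main

/-!
# Turán's inequality

`∑_{n ≤ N} (ω n - log log N) ^ 2 = O (N log log N)`, and the normal order of `ω`.
-/

set_option autoImplicit false

noncomputable section

namespace FA.ErdosKac

open Finset Filter
open scoped Topology

theorem turan_exact (N : ℕ) (x : ℝ) (hx : 0 ≤ x) :
    ∑ n ∈ Icc 1 N, ((n.primeFactors.card : ℝ) - x) ^ 2 ≤
      N * ((recipSum N - x) ^ 2 + recipSum N + 2 * x) := by
  classical
  obtain ⟨P, hPdef⟩ : ∃ P, P = primesUpTo N := ⟨_, rfl⟩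
  have hfac : ∀ n ∈ Icc 1 N, n.primeFactors = P.filter (· ∣ n) := fun n hn => by
    rw [mem_Icc] at hn
    ext q
    rw [Nat.mem_primeFactors, mem_filter, hPdef, mem_primesUpTo]
    exact ⟨fun h => ⟨⟨h.1, (Nat.le_of_dvd hn.1 h.2.1).trans hn.2⟩, h.2.1⟩,
      fun h => ⟨h.1.1, h.2, by omega⟩⟩
  have hL : recipSum N = ∑ q ∈ P, (q : ℝ)⁻¹ := by rw [hPdef]; rfl
  have hcount : ∀ d : ℕ, ((((Icc 1 N).filter fun n => d ∣ n).card : ℕ) : ℝ) =
      ((N / d : ℕ) : ℝ) := fun d => by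
    rw [show Icc 1 N = Ioc 0 N from rfl, Nat.Ioc_filter_dvd_card_eq_div]
  have hlow : (N : ℝ) * recipSum N - N ≤ ∑ n ∈ Icc 1 N, ((P.filter (· ∣ n)).card : ℝ) := by
    simp only [card_filter, Nat.cast_sum, Nat.cast_ite, Nat.cast_one, Nat.cast_zero]
    rw [sum_comm, hL, mul_sum]
    have h1 : (P.card : ℝ) ≤ N := by
      rw [hPdef, primesUpTo]
      refine Nat.cast_le.2 ((card_filter_le _ _).trans ?_)
      rw [Nat.card_Icc]
      omega
    have h2 : ∀ q ∈ P, (N : ℝ) * (q : ℝ)⁻¹ - 1 ≤ ∑ n ∈ Icc 1 N, if q ∣ n then (1 : ℝ) else 0 := by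
      intro q _
      rw [sum_boole, hcount q, ← Nat.floor_div_eq_div (K := ℝ), ← div_eq_mul_inv]
      linarith [Nat.lt_floor_add_one ((N : ℝ) / q)]
    refine le_trans ?_ (sum_le_sum h2)
    rw [sum_sub_distrib, sum_const, nsmul_one]
    linarith
  have hhigh : ∑ n ∈ Icc 1 N, ((P.filter (· ∣ n)).card : ℝ) ^ 2 ≤
      N * recipSum N + N * recipSum N ^ 2 := by
    simp only [card_filter, Nat.cast_sum, Nat.cast_ite, Nat.cast_one, Nat.cast_zero, sq,
      sum_mul_sum]
    rw [sum_comm, hL, sum_mul_sum]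
    simp only [mul_sum, ← sum_add_distrib]
    refine sum_le_sum fun q hq => ?_
    rw [sum_comm, ← add_sum_erase _ _ hq, ← add_sum_erase _
      (fun r : ℕ => (N : ℝ) * ((q : ℝ)⁻¹ * (r : ℝ)⁻¹)) hq]
    refine add_le_add ?_ (le_trans ?_ (le_add_of_nonneg_left (by positivity)))
    · simp only [ite_mul_ite, mul_one, mul_zero]
      rw [sum_boole, hcount q, ← div_eq_mul_inv]
      exact Nat.cast_div_le
    · refine sum_le_sum fun r hr => ?_
      have hq' : q.Prime := (mem_primesUpTo.1 (hPdef ▸ hq)).1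
      have hr' : r.Prime := (mem_primesUpTo.1 (hPdef ▸ (mem_erase.1 hr).2)).1
      have hcop : Nat.Coprime q r := (Nat.coprime_primes hq' hr').2 (mem_erase.1 hr).1.symm
      refine le_trans (le_of_eq ?_) (le_of_le_of_eq ((hcount (q * r)).le.trans Nat.cast_div_le) (by
        push_cast
        rw [div_eq_mul_inv, mul_inv]))
      rw [← sum_boole]
      refine sum_congr rfl fun n _ => ?_
      have hiff : q * r ∣ n ↔ q ∣ n ∧ r ∣ n :=
        ⟨fun h => ⟨dvd_of_mul_right_dvd h, dvd_of_mul_left_dvd h⟩,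
          fun h => hcop.mul_dvd_of_dvd_of_dvd h.1 h.2⟩
      by_cases h1 : q ∣ n <;> by_cases h2 : r ∣ n <;> simp [h1, h2, hiff]
  have hsq : ∀ n ∈ Icc 1 N, ((n.primeFactors.card : ℝ) - x) ^ 2 =
      ((P.filter (· ∣ n)).card : ℝ) ^ 2 - 2 * x * ((P.filter (· ∣ n)).card : ℝ) + x ^ 2 :=
    fun n hn => by rw [hfac n hn]; ring
  rw [sum_congr rfl hsq, sum_add_distrib, sum_sub_distrib, ← mul_sum, sum_const, Nat.card_Icc,
    Nat.add_sub_cancel, nsmul_eq_mul]
  have h := mul_le_mul_of_nonneg_left hlow (show 0 ≤ 2 * x by linarith)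
  linarith

/-- **Turán.** -/
theorem exists_turan : ∃ C : ℝ, ∀ᶠ N : ℕ in atTop,
    ∑ n ∈ Icc 1 N, ((n.primeFactors.card : ℝ) - loglog N) ^ 2 ≤ C * N * loglog N := by
  obtain ⟨C, hC⟩ := exists_abs_recipSum_sub_le
  refine ⟨C ^ 2 + |C| + 3, ?_⟩
  filter_upwards [tendsto_loglog.eventually_ge_atTop 1, eventually_ge_atTop 2] with N hl hN
  refine (turan_exact N (loglog N) (by linarith)).trans ?_
  have h := abs_le.1 (hC N hN)
  have h1 : (recipSum N - loglog N) ^ 2 ≤ C ^ 2 := by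
    rw [loglog]
    exact sq_le_sq' h.1 h.2
  have h2 : recipSum N ≤ loglog N + |C| := by
    rw [loglog]
    linarith [h.2, le_abs_self C]
  have h3 := mul_le_mul_of_nonneg_left hl (show 0 ≤ C ^ 2 + |C| by positivity)
  rw [mul_comm (C ^ 2 + |C| + 3) (N : ℝ), mul_assoc]
  exact mul_le_mul_of_nonneg_left (by linarith) (Nat.cast_nonneg N)

/-- **Hardy and Ramanujan**: almost all `n ≤ N` have about `log log N` prime divisors. -/
theorem tendsto_normal_order {ε : ℝ} (hε : 0 < ε) :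
    Tendsto (fun N : ℕ => (((Icc 1 N).filter fun n : ℕ =>
      ε * loglog N ≤ |(n.primeFactors.card : ℝ) - loglog N|).card : ℝ) / N) atTop (𝓝 0) := by
  obtain ⟨C, hC⟩ := exists_turan
  refine squeeze_zero' (Eventually.of_forall fun N => by positivity) ?_
    ((tendsto_const_nhds (x := C / ε ^ 2)).div_atTop tendsto_loglog)
  filter_upwards [hC, tendsto_loglog.eventually_gt_atTop 0, eventually_gt_atTop 0] with N hT hl hN
  have hNr : (0 : ℝ) < N := Nat.cast_pos.2 hN
  rw [div_le_iff₀ hNr, div_div, div_mul_eq_mul_div, le_div_iff₀ (by positivity)]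
  refine le_of_mul_le_mul_right ?_ hl
  refine le_trans (le_of_eq ?_) ((sum_le_sum_of_subset_of_nonneg (filter_subset
    (fun n : ℕ => ε * loglog N ≤ |(n.primeFactors.card : ℝ) - loglog N|) (Icc 1 N))
    fun n _ _ => sq_nonneg _).trans hT |>.trans' (sum_le_sum (f := fun _ => (ε * loglog N) ^ 2)
      fun n hn => ?_))
  · rw [sum_const, nsmul_eq_mul]
    ring
  · rw [← sq_abs ((n.primeFactors.card : ℝ) - loglog N)]
    exact pow_le_pow_left₀ (by positivity) (mem_filter.1 hn).2 2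

end FA.ErdosKac
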