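import Fermat.Agent.ErdosKac.Mertens
import Mathlib.Analysis.SpecialFunctions.Complex.Circle
import Mathlib.Analysis.Complex.Exponential
import Mathlib.Data.Finset.Powerset
import Mathlib.Algebra.BigOperators.Ring.Finset

/-!
# The number of prime factors against the independent model

For `|1 + w| = 1` the average of `(1 + w) ^ #{p ∈ P | p ∣ n}` over `n ≤ N` is `∏ (1 + w / p)` up
to the truncation error of the binomial series and `(2 #P) ^ K / N`.
-/

set_option autoImplicit false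

noncomputable section

namespace FA.ErdosKac

open Finset

theorem norm_binomial_trunc_le {w : ℂ} (hw : ‖1 + w‖ ≤ 1) (S K : ℕ) :
    ‖(1 + w) ^ S - ∑ k ∈ range K, (S.choose k : ℂ) * w ^ k‖ ≤ (S.choose K : ℝ) * ‖w‖ ^ K := by
  induction S generalizing K with
  | zero =>
    rcases K with _ | K
    · simp
    · simp [sum_range_succ']
  | succ S ih =>
    rcases K with _ | K
    · simpa using pow_le_one₀ (norm_nonneg _) hw
    have e : (1 + w) ^ (S + 1) - ∑ k ∈ range (K + 1), ((S + 1).choose k : ℂ) * w ^ k =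
        ((1 + w) ^ S - ∑ k ∈ range (K + 1), (S.choose k : ℂ) * w ^ k) +
          w * ((1 + w) ^ S - ∑ k ∈ range K, (S.choose k : ℂ) * w ^ k) := by
      simp only [sum_range_succ', Nat.choose_succ_succ', Nat.cast_add, Nat.choose_zero_right,
        add_mul, sum_add_distrib, pow_succ, mul_sub, mul_sum]
      ring_nf
    rw [e]
    refine (norm_add_le _ _).trans ?_
    rw [norm_mul, Nat.choose_succ_succ, Nat.cast_add, add_mul]
    refine le_of_le_of_eq (add_le_add (ih (K + 1))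
      (mul_le_mul_of_nonneg_left (ih K) (norm_nonneg w))) ?_
    ring

/-- The elementary symmetric sums of `1 / p`. -/
def esymmInv (P : Finset ℕ) (k : ℕ) : ℝ := ∑ T ∈ P.powersetCard k, ∏ q ∈ T, (q : ℝ)⁻¹

theorem esymmInv_nonneg (P : Finset ℕ) (k : ℕ) : 0 ≤ esymmInv P k :=
  sum_nonneg fun _ _ => prod_nonneg fun q _ => inv_nonneg.2 (Nat.cast_nonneg q)

theorem add_pow_ge {L a : ℝ} (hL : 0 ≤ L) (ha : 0 ≤ a) (k : ℕ) :
    L ^ (k + 1) + (k + 1) * a * L ^ k ≤ (L + a) ^ (k + 1) := by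
  induction k with
  | zero => simp
  | succ k ih =>
    have h := mul_le_mul_of_nonneg_right ih (add_nonneg hL ha)
    have : 0 ≤ ((k : ℝ) + 1) * a * a * L ^ k := by positivity
    push_cast
    rw [pow_succ (L + a)]
    refine le_trans ?_ h
    ring_nf at this ⊢
    linarith

theorem esymmInv_le (P : Finset ℕ) :
    ∀ k, esymmInv P k ≤ (∑ q ∈ P, (q : ℝ)⁻¹) ^ k / k.factorial := by
  induction P using Finset.induction with
  | empty =>
    intro k
    rcases k with _ | k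
    · simp [esymmInv]
    · simp [esymmInv, powersetCard_eq_empty.2 (show (∅ : Finset ℕ).card < k + 1 by simp)]
  | @insert a P ha ih =>
    intro k
    rcases k with _ | k
    · simp [esymmInv]
    have hL : 0 ≤ ∑ q ∈ P, (q : ℝ)⁻¹ := sum_nonneg fun q _ => inv_nonneg.2 (Nat.cast_nonneg q)
    have e : esymmInv (insert a P) (k + 1) = esymmInv P (k + 1) + (a : ℝ)⁻¹ * esymmInv P k := by
      rw [esymmInv, esymmInv, esymmInv, powersetCard_succ_insert ha, sum_union, sum_image, mul_sum]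
      · congr 1
        refine sum_congr rfl fun T hT => ?_
        rw [prod_insert fun h => ha ((mem_powersetCard.1 hT).1 h)]
      · intro T hT T' hT' h
        have h' := congrArg (fun s : Finset ℕ => s.erase a) h
        simpa [erase_insert fun h => ha ((mem_powersetCard.1 hT).1 h),
          erase_insert fun h => ha ((mem_powersetCard.1 hT').1 h)] using h'
      · refine disjoint_left.2 fun T hT hT' => ?_
        obtain ⟨U, -, rfl⟩ := mem_image.1 hT'
        exact ha ((mem_powersetCard.1 hT).1 (mem_insert_self a U))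
    rw [e, sum_insert ha]
    refine (add_le_add (ih (k + 1)) (mul_le_mul_of_nonneg_left (ih k) (by positivity))).trans ?_
    rw [add_comm (a : ℝ)⁻¹, le_div_iff₀ (by positivity)]
    refine le_of_eq_of_le ?_ (add_pow_ge hL (show (0 : ℝ) ≤ (a : ℝ)⁻¹ by positivity) k)
    rw [Nat.factorial_succ]
    push_cast
    field_simp

theorem prod_one_add_eq (P : Finset ℕ) (w : ℂ) :
    ∏ q ∈ P, (1 + w / (q : ℂ)) = ∑ k ∈ range (P.card + 1), w ^ k * (esymmInv P k : ℂ) := by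
  rw [prod_one_add, sum_powerset]
  refine sum_congr rfl fun k _ => ?_
  rw [esymmInv, Complex.ofReal_sum, mul_sum]
  refine sum_congr rfl fun T hT => ?_
  rw [Complex.ofReal_prod, ← (mem_powersetCard.1 hT).2, ← prod_const, ← prod_mul_distrib]
  exact prod_congr rfl fun q _ => by rw [Complex.ofReal_inv, Complex.ofReal_natCast, div_eq_mul_inv]

theorem pow_div_factorial_le {x : ℝ} (hx : 0 ≤ x) {K : ℕ} (hK : 6 * x ≤ K) {k : ℕ} (hk : K ≤ k) :
    x ^ k / k.factorial ≤ (1 / 2) ^ k := by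
  have h1 : (k : ℝ) ^ k / k.factorial ≤ Real.exp k :=
    Real.pow_div_factorial_le_exp (k : ℝ) (Nat.cast_nonneg k) k
  have h2 : x ≤ (k : ℝ) / 6 := by
    have : (K : ℝ) ≤ k := Nat.cast_le.2 hk
    linarith
  calc x ^ k / k.factorial ≤ ((k : ℝ) / 6) ^ k / k.factorial :=
        div_le_div_of_nonneg_right (pow_le_pow_left₀ hx h2 k) (Nat.cast_nonneg _)
    _ = (k : ℝ) ^ k / k.factorial * (1 / 6) ^ k := by rw [div_pow, div_pow, one_pow]; ring
    _ ≤ Real.exp k * (1 / 6) ^ k := mul_le_mul_of_nonneg_right h1 (by positivity)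
    _ = (Real.exp 1 * (1 / 6)) ^ k := by rw [mul_pow, Real.exp_one_pow]
    _ ≤ (1 / 2) ^ k := pow_le_pow_left₀ (by positivity) (by linarith [Real.exp_one_lt_d9]) k

theorem card_filter_dvd_all {P : Finset ℕ} (hP : ∀ q ∈ P, q.Prime) {T : Finset ℕ} (hT : T ⊆ P)
    (N : ℕ) : ((Icc 1 N).filter fun n => T ⊆ P.filter (· ∣ n)).card = N / ∏ q ∈ T, q := by
  rw [← Nat.Ioc_filter_dvd_card_eq_div N (∏ q ∈ T, q)]
  congr 1
  ext n
  simp only [mem_filter, mem_Icc, mem_Ioc]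
  refine and_congr (by omega) ⟨fun h => ?_, fun h q hq => mem_filter.2
    ⟨hT hq, (dvd_prod_of_mem _ hq).trans h⟩⟩
  exact prod_primes_dvd n (fun q hq => (hP q (hT hq)).prime) fun q hq => (mem_filter.1 (h hq)).2

theorem abs_sum_choose_sub_le {P : Finset ℕ} (hP : ∀ q ∈ P, q.Prime) (N k : ℕ) :
    |(∑ n ∈ Icc 1 N, ((P.filter (· ∣ n)).card.choose k : ℝ)) - N * esymmInv P k| ≤
      (P.card : ℝ) ^ k := by
  have e : (∑ n ∈ Icc 1 N, ((P.filter (· ∣ n)).card.choose k : ℝ)) =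
      ∑ T ∈ P.powersetCard k, ((N / ∏ q ∈ T, q : ℕ) : ℝ) := by
    have h : ∀ n, ((P.filter (· ∣ n)).card.choose k : ℝ) =
        ∑ T ∈ P.powersetCard k, if T ⊆ P.filter (· ∣ n) then (1 : ℝ) else 0 := fun n => by
      rw [← card_powersetCard, sum_boole]
      congr 2
      ext T
      simp only [mem_powersetCard, mem_filter]
      exact ⟨fun h => ⟨⟨h.1.trans (filter_subset _ _), h.2⟩, h.1⟩, fun h => ⟨h.2, h.1.2⟩⟩
    rw [sum_congr rfl fun n _ => h n, sum_comm]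
    refine sum_congr rfl fun T hT => ?_
    rw [sum_boole, card_filter_dvd_all hP (mem_powersetCard.1 hT).1]
  rw [e, esymmInv, mul_sum, ← sum_sub_distrib]
  refine (abs_sum_le_sum_abs _ _).trans
    ((sum_le_sum (g := fun _ => (1 : ℝ)) fun T hT => ?_).trans ?_)
  · rw [prod_inv_distrib, ← Nat.cast_prod, ← div_eq_mul_inv, ← Nat.floor_div_eq_div (K := ℝ),
      abs_le]
    have h0 : (0 : ℝ) ≤ (N : ℝ) / ((∏ q ∈ T, q : ℕ) : ℝ) := by positivity
    constructor <;>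
      linarith [Nat.floor_le h0, Nat.lt_floor_add_one ((N : ℝ) / ((∏ q ∈ T, q : ℕ) : ℝ))]
  · rw [sum_const, nsmul_one, card_powersetCard]
    exact_mod_cast Nat.choose_le_pow _ k

/-- **The comparison with the model.** -/
theorem norm_sum_pow_sub_le {P : Finset ℕ} (hP : ∀ q ∈ P, q.Prime) {w : ℂ} (hw : ‖1 + w‖ ≤ 1)
    {K : ℕ} (hK : 6 * (‖w‖ * ∑ q ∈ P, (q : ℝ)⁻¹) ≤ K) {N : ℕ} (hN : 0 < N) :
    ‖(∑ n ∈ Icc 1 N, (1 + w) ^ (P.filter (· ∣ n)).card) / (N : ℂ) -
        ∏ q ∈ P, (1 + w / (q : ℂ))‖ ≤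
      3 * (1 / 2) ^ K + (K + 1) * (2 * ((P.card : ℝ) + 1)) ^ K / N := by
  obtain ⟨L, hL⟩ : ∃ L, L = ∑ q ∈ P, (q : ℝ)⁻¹ := ⟨_, rfl⟩
  rw [← hL] at hK
  have hL0 : 0 ≤ L := hL ▸ sum_nonneg fun q _ => inv_nonneg.2 (Nat.cast_nonneg q)
  have hNr : (0 : ℝ) < N := Nat.cast_pos.2 hN
  have hN0 : (N : ℂ) ≠ 0 := Nat.cast_ne_zero.2 (by omega)
  have hw2 : ‖w‖ ≤ 2 := by
    calc ‖w‖ = ‖(1 + w) - 1‖ := by rw [add_sub_cancel_left]
      _ ≤ ‖1 + w‖ + ‖(1 : ℂ)‖ := norm_sub_le _ _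
      _ ≤ 2 := by rw [norm_one]; linarith
  obtain ⟨B, hB⟩ : ∃ B, B = (2 * ((P.card : ℝ) + 1)) ^ K := ⟨_, rfl⟩
  rw [← hB]
  have hterm : ∀ k ≤ K, ‖w‖ ^ k * (P.card : ℝ) ^ k ≤ B := fun k hk => by
    rw [← mul_pow, hB]
    refine (pow_le_pow_left₀ (by positivity) ?_ k).trans (pow_le_pow_right₀ ?_ hk)
    · exact mul_le_mul hw2 (le_add_of_nonneg_right zero_le_one) (Nat.cast_nonneg _) two_pos.le
    · linarith [Nat.cast_nonneg (α := ℝ) P.card]
  obtain ⟨c, hc⟩ : ∃ c : ℕ → ℝ,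
      c = fun k => ∑ n ∈ Icc 1 N, ((P.filter (· ∣ n)).card.choose k : ℝ) := ⟨_, rfl⟩
  have hck : ∀ k, |c k - N * esymmInv P k| ≤ (P.card : ℝ) ^ k := fun k =>
    hc ▸ abs_sum_choose_sub_le hP N k
  have hes : ∀ k, K ≤ k → ‖w‖ ^ k * esymmInv P k ≤ (1 / 2) ^ k := fun k hk => by
    refine (mul_le_mul_of_nonneg_left (esymmInv_le P k) (by positivity)).trans ?_
    rw [← hL, ← mul_div_assoc, ← mul_pow]
    exact pow_div_factorial_le (mul_nonneg (norm_nonneg w) hL0) hK hk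
  have h1 : ‖(∑ n ∈ Icc 1 N, (1 + w) ^ (P.filter (· ∣ n)).card) / (N : ℂ) -
      ∑ k ∈ range K, w ^ k * ((c k / N : ℝ) : ℂ)‖ ≤ (1 / 2) ^ K + B / N := by
    have e : ∑ k ∈ range K, w ^ k * ((c k / N : ℝ) : ℂ) =
        (∑ n ∈ Icc 1 N, ∑ k ∈ range K, ((P.filter (· ∣ n)).card.choose k : ℂ) * w ^ k) /
          (N : ℂ) := by
      rw [sum_comm, sum_div, hc]
      refine sum_congr rfl fun k _ => ?_
      push_cast
      rw [mul_div_assoc', mul_comm (w ^ k), sum_mul]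
    rw [e, ← sub_div, ← sum_sub_distrib, norm_div, Complex.norm_natCast, div_le_iff₀ hNr, add_mul,
      div_mul_cancel₀ _ hNr.ne']
    refine (norm_sum_le _ _).trans ((sum_le_sum fun n _ => norm_binomial_trunc_le hw _ K).trans ?_)
    have h := (abs_le.1 (hck K)).2
    have h' := mul_le_mul_of_nonneg_left (hes K le_rfl) hNr.le
    have h'' := mul_le_mul_of_nonneg_right (show c K ≤ N * esymmInv P K + (P.card : ℝ) ^ K by
      linarith) (show 0 ≤ ‖w‖ ^ K by positivity)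
    rw [← sum_mul]
    rw [hc] at h''
    have h3 := hterm K le_rfl
    linarith
  have h2 : ‖∑ k ∈ range K, w ^ k * ((c k / N : ℝ) : ℂ) -
      ∑ k ∈ range K, w ^ k * (esymmInv P k : ℂ)‖ ≤ K * B / N := by
    rw [← sum_sub_distrib]
    refine (norm_sum_le _ _).trans ((sum_le_sum (g := fun _ => B / N) fun k hk => ?_).trans ?_)
    · rw [← mul_sub, ← Complex.ofReal_sub, norm_mul, norm_pow, Complex.norm_real, Real.norm_eq_abs,
        div_sub' hNr.ne', abs_div, abs_of_pos hNr, mul_div_assoc']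
      refine div_le_div_of_nonneg_right ?_ hNr.le
      exact (mul_le_mul_of_nonneg_left (hck k) (by positivity)).trans
        (hterm k (mem_range.1 hk).le)
    · rw [sum_const, card_range, nsmul_eq_mul, mul_div_assoc]
  have h3 : ‖∑ k ∈ range K, w ^ k * (esymmInv P k : ℂ) - ∏ q ∈ P, (1 + w / (q : ℂ))‖ ≤
      2 * (1 / 2) ^ K := by
    obtain ⟨M, hM⟩ : ∃ M, M = max K (P.card + 1) := ⟨_, rfl⟩
    have e : ∏ q ∈ P, (1 + w / (q : ℂ)) = ∑ k ∈ range M, w ^ k * (esymmInv P k : ℂ) := by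
      rw [prod_one_add_eq]
      refine sum_subset (range_mono (by omega)) fun k _ hk => ?_
      rw [mem_range, not_lt] at hk
      rw [esymmInv, powersetCard_eq_empty.2 (by omega), sum_empty, Complex.ofReal_zero, mul_zero]
    rw [e, ← sum_range_add_sum_Ico _ (show K ≤ M by omega), sub_add_cancel_left, norm_neg]
    refine (norm_sum_le _ _).trans
      ((sum_le_sum (g := fun k => (1 / 2 : ℝ) ^ k) fun k hk => ?_).trans ?_)
    · rw [norm_mul, norm_pow, Complex.norm_real, Real.norm_of_nonneg (esymmInv_nonneg P k)]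
      exact hes k (mem_Ico.1 hk).1
    · rw [sum_Ico_eq_sum_range]
      simp only [pow_add, ← mul_sum]
      rw [mul_comm (2 : ℝ)]
      exact mul_le_mul_of_nonneg_left (sum_geometric_two_le _) (by positivity)
  have h4 := norm_sub_le_norm_sub_add_norm_sub
    ((∑ n ∈ Icc 1 N, (1 + w) ^ (P.filter (· ∣ n)).card) / (N : ℂ))
    (∑ k ∈ range K, w ^ k * ((c k / N : ℝ) : ℂ)) (∑ k ∈ range K, w ^ k * (esymmInv P k : ℂ))
  have h5 := norm_sub_le_norm_sub_add_norm_sub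
    ((∑ n ∈ Icc 1 N, (1 + w) ^ (P.filter (· ∣ n)).card) / (N : ℂ))
    (∑ k ∈ range K, w ^ k * (esymmInv P k : ℂ)) (∏ q ∈ P, (1 + w / (q : ℂ)))
  rw [add_mul, one_mul, add_div]
  linarith

theorem sum_inv_sq_le (P : Finset ℕ) (hP : ∀ q ∈ P, q.Prime) :
    ∑ q ∈ P, ((q : ℝ)⁻¹) ^ 2 ≤ 1 := by
  obtain ⟨M, hM⟩ : ∃ M, M = P.sup id + 2 := ⟨_, rfl⟩
  have hsub : P ⊆ Ico 2 M := fun q hq => by
    have : id q ≤ P.sup id := le_sup hq
    simp only [id] at this
    exact mem_Ico.2 ⟨(hP q hq).two_le, by omega⟩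
  refine (sum_le_sum_of_subset_of_nonneg hsub fun _ _ _ => by positivity).trans
    ((sum_le_sum (g := fun k : ℕ => -((((k + 1 : ℕ) : ℝ) - 1)⁻¹ - ((k : ℝ) - 1)⁻¹))
      fun k hk => ?_).trans ?_)
  · have h2 : (2 : ℝ) ≤ k := Nat.ofNat_le_cast.2 (mem_Ico.1 hk).1
    push_cast
    rw [add_sub_cancel_right, neg_sub, inv_sub_inv (by linarith) (by linarith), sub_sub_cancel,
      one_div, inv_pow]
    exact inv_anti₀ (mul_pos (by linarith) (by linarith)) (by nlinarith)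
  · rw [sum_neg_distrib, sum_Ico_sub (fun k : ℕ => ((k : ℝ) - 1)⁻¹) (by omega)]
    have : (2 : ℝ) ≤ M := Nat.ofNat_le_cast.2 (by omega)
    have : 0 ≤ ((M : ℝ) - 1)⁻¹ := inv_nonneg.2 (by linarith)
    norm_num
    linarith

/-- The model product against the exponential. -/
theorem norm_prod_sub_exp_le {P : Finset ℕ} (hP : ∀ q ∈ P, q.Prime) {w : ℂ} (hw : ‖1 + w‖ ≤ 1)
    (hw1 : ‖w‖ ≤ 1) :
    ‖∏ q ∈ P, (1 + w / (q : ℂ)) - Complex.exp (w * ∑ q ∈ P, (q : ℂ)⁻¹)‖ ≤ ‖w‖ ^ 2 := by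
  have hu : ∀ q ∈ P, (0 : ℝ) ≤ (q : ℝ)⁻¹ ∧ (q : ℝ)⁻¹ ≤ 1 := fun q hq =>
    ⟨by positivity, inv_le_one_of_one_le₀ (Nat.one_le_cast.2 (hP q hq).one_le)⟩
  have hfac : ∀ q ∈ P, ‖1 + w / (q : ℂ)‖ ≤ 1 := fun q hq => by
    obtain ⟨h0, h1⟩ := hu q hq
    have e : 1 + w / (q : ℂ) = (((q : ℝ)⁻¹ : ℝ) : ℂ) * (1 + w) + ((1 - (q : ℝ)⁻¹ : ℝ) : ℂ) := by
      push_cast
      ring
    rw [e]
    refine (norm_add_le _ _).trans ?_
    rw [norm_mul, Complex.norm_real, Complex.norm_real, Real.norm_of_nonneg h0,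
      Real.norm_of_nonneg (sub_nonneg.2 h1)]
    linarith [mul_le_mul_of_nonneg_left hw h0]
  have hre : w.re ≤ 0 := by
    have h1 : (1 + w).re ≤ 1 := ((1 + w).re_le_norm).trans hw
    rw [Complex.add_re, Complex.one_re] at h1
    linarith
  have hexp : ∀ q ∈ P, ‖Complex.exp (w / (q : ℂ))‖ ≤ 1 := fun q hq => by
    rw [Complex.norm_exp, Real.exp_le_one_iff, ← Complex.ofReal_natCast, Complex.div_ofReal_re]
    exact div_nonpos_of_nonpos_of_nonneg hre (Nat.cast_nonneg q)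
  rw [mul_sum, Complex.exp_sum]
  simp only [← div_eq_mul_inv]
  refine le_trans ?_ (le_trans (sum_le_sum (s := P)
    (f := fun q : ℕ => ‖1 + w / (q : ℂ) - Complex.exp (w / (q : ℂ))‖)
    (g := fun q : ℕ => ‖w‖ ^ 2 * ((q : ℝ)⁻¹) ^ 2) fun q hq => ?_) ?_)
  · clear hre hw hw1 hu hP
    induction P using Finset.induction with
    | empty => simp
    | @insert a P ha ih =>
      rw [prod_insert ha, prod_insert ha, sum_insert ha]
      have hfP : ∀ q ∈ P, ‖1 + w / (q : ℂ)‖ ≤ 1 := fun q hq => hfac q (mem_insert_of_mem hq)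
      have heP : ∀ q ∈ P, ‖Complex.exp (w / (q : ℂ))‖ ≤ 1 := fun q hq =>
        hexp q (mem_insert_of_mem hq)
      calc ‖(1 + w / (a : ℂ)) * ∏ q ∈ P, (1 + w / (q : ℂ)) -
            Complex.exp (w / (a : ℂ)) * ∏ q ∈ P, Complex.exp (w / (q : ℂ))‖
          = ‖(1 + w / (a : ℂ) - Complex.exp (w / (a : ℂ))) * ∏ q ∈ P, (1 + w / (q : ℂ)) +
            Complex.exp (w / (a : ℂ)) * (∏ q ∈ P, (1 + w / (q : ℂ)) -
              ∏ q ∈ P, Complex.exp (w / (q : ℂ)))‖ := by congr 1; ring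
        _ ≤ _ := (norm_add_le _ _).trans (add_le_add ?_ ?_)
      · rw [norm_mul]
        refine mul_le_of_le_one_right (norm_nonneg _) ?_
        rw [norm_prod]
        exact prod_le_one (fun _ _ => norm_nonneg _) hfP
      · rw [norm_mul]
        exact (mul_le_of_le_one_left (norm_nonneg _) (hexp a (mem_insert_self a P))).trans
          (ih hfP heP)
  · have hn : ‖w / (q : ℂ)‖ = ‖w‖ * (q : ℝ)⁻¹ := by
      rw [norm_div, Complex.norm_natCast, div_eq_mul_inv]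
    have h := Complex.norm_exp_sub_one_sub_id_le (x := w / (q : ℂ))
      (hn ▸ mul_le_one₀ hw1 (hu q hq).1 (hu q hq).2)
    rw [hn, mul_pow] at h
    rw [norm_sub_rev, ← sub_sub]
    exact h
  · rw [← mul_sum]
    exact mul_le_of_le_one_right (by positivity) (sum_inv_sq_le P hP)

end FA.ErdosKac
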